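/-
Project S52 (the 3-5 switch), node [UNIV], the scaling algebra (helper17).  Prefix `s52u_`.
A pair `(a, b)` of rational functions, not both zero (the coefficients of `y² = x³ + a x + b` over
`k(s)`), is `(λ⁻⁴ A, λ⁻⁶ B)` for some `λ ∈ k(s)ˣ` and a MINIMAL pair of polynomials `(A, B)`:
no irreducible `π` with `π⁴ ∣ A` and `π⁶ ∣ B`.

* `s52u_IsMin`, `s52u_exists_min` (polynomial pairs), `s52u_exists_scale` (clearing denominators),
  `s52u_exists_minScale` (the combination);
* `s52u_twist_const` : the constant twist normalising the fibre at `s = 0`.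
Mathlib only.
-/
import Mathlib

set_option autoImplicit false

namespace Fermat.Agent.S52

open Polynomial

section Min
variable {k : Type*} [Field k]

/-- the measure of a pair of polynomials -/
noncomputable def s52u_meas (A B : k[X]) : ℕ := A.natDegree + B.natDegree

/-- `(A, B)` is minimal: no irreducible `π` with `π⁴ ∣ A` and `π⁶ ∣ B`. -/
def s52u_IsMin (A B : k[X]) : Prop := ∀ π : k[X], Irreducible π → ¬ (π ^ 4 ∣ A ∧ π ^ 6 ∣ B)

theorem s52u_exists_min_aux (n : ℕ) : ∀ A B : k[X], (A ≠ 0 ∨ B ≠ 0) → s52u_meas A B ≤ n →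
    ∃ g A' B' : k[X], g ≠ 0 ∧ A = g ^ 4 * A' ∧ B = g ^ 6 * B' ∧ s52u_IsMin A' B' := by
  induction n with
  | zero =>
    intro A B hAB hm
    refine ⟨1, A, B, one_ne_zero, by rw [one_pow, one_mul], by rw [one_pow, one_mul], ?_⟩
    intro π hπ ⟨h4, h6⟩
    have hA : A.natDegree = 0 := by unfold s52u_meas at hm; omega
    have hB : B.natDegree = 0 := by unfold s52u_meas at hm; omega
    have hπd : 0 < π.natDegree := Polynomial.natDegree_pos_iff_degree_pos.2
      (Polynomial.degree_pos_of_irreducible hπ)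
    rcases hAB with h | h
    · have := Polynomial.natDegree_le_of_dvd h4 h
      rw [natDegree_pow, hA] at this
      omega
    · have := Polynomial.natDegree_le_of_dvd h6 h
      rw [natDegree_pow, hB] at this
      omega
  | succ n ih =>
    intro A B hAB hm
    by_cases hmin : s52u_IsMin A B
    · exact ⟨1, A, B, one_ne_zero, by rw [one_pow, one_mul], by rw [one_pow, one_mul], hmin⟩
    · unfold s52u_IsMin at hmin
      push Not at hmin
      obtain ⟨π, hπ, ⟨A₁, hA₁⟩, ⟨B₁, hB₁⟩⟩ := hmin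
      have hπ0 : π ≠ 0 := hπ.ne_zero
      have hπd : 0 < π.natDegree := Polynomial.natDegree_pos_iff_degree_pos.2
        (Polynomial.degree_pos_of_irreducible hπ)
      have hAB₁ : A₁ ≠ 0 ∨ B₁ ≠ 0 := by
        rcases hAB with h | h
        · left
          rintro rfl
          exact h (by rw [hA₁, mul_zero])
        · right
          rintro rfl
          exact h (by rw [hB₁, mul_zero])
      have hm₁ : s52u_meas A₁ B₁ ≤ n := by
        unfold s52u_meas at hm ⊢
        have h1 : A₁.natDegree ≤ A.natDegree := by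
          by_cases h : A₁ = 0
          · rw [h, natDegree_zero]; exact Nat.zero_le _
          · rw [hA₁, natDegree_mul (pow_ne_zero _ hπ0) h]; omega
        have h2 : B₁.natDegree ≤ B.natDegree := by
          by_cases h : B₁ = 0
          · rw [h, natDegree_zero]; exact Nat.zero_le _
          · rw [hB₁, natDegree_mul (pow_ne_zero _ hπ0) h]; omega
        rcases hAB₁ with h | h
        · have : A.natDegree = 4 * π.natDegree + A₁.natDegree := by
            rw [hA₁, natDegree_mul (pow_ne_zero _ hπ0) h, natDegree_pow]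
          omega
        · have : B.natDegree = 6 * π.natDegree + B₁.natDegree := by
            rw [hB₁, natDegree_mul (pow_ne_zero _ hπ0) h, natDegree_pow]
          omega
      obtain ⟨g, A', B', hg, hA', hB', hmin'⟩ := ih A₁ B₁ hAB₁ hm₁
      refine ⟨π * g, A', B', mul_ne_zero hπ0 hg, ?_, ?_, hmin'⟩
      · rw [hA₁, hA']; ring
      · rw [hB₁, hB']; ring

/-- every pair `(A, B) ≠ (0, 0)` of polynomials is `(g⁴ A', g⁶ B')` with `(A', B')` minimal. -/
theorem s52u_exists_min (A B : k[X]) (hAB : A ≠ 0 ∨ B ≠ 0) :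
    ∃ g A' B' : k[X], g ≠ 0 ∧ A = g ^ 4 * A' ∧ B = g ^ 6 * B' ∧ s52u_IsMin A' B' :=
  s52u_exists_min_aux _ A B hAB le_rfl

end Min

/-- scaling a pair of rational functions into a minimal pair of polynomials -/
theorem s52u_exists_scale {k : Type*} [Field k] (a b : RatFunc k) (hab : a ≠ 0 ∨ b ≠ 0) :
    ∃ (lam : RatFunc k) (A B : k[X]), lam ≠ 0 ∧ algebraMap k[X] (RatFunc k) A = lam ^ 4 * a ∧
      algebraMap k[X] (RatFunc k) B = lam ^ 6 * b ∧ (A ≠ 0 ∨ B ≠ 0) := by
  -- clear denominators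
  set d : k[X] := a.denom * b.denom with hd
  have hd0 : d ≠ 0 := mul_ne_zero (RatFunc.denom_ne_zero a) (RatFunc.denom_ne_zero b)
  have hdK : algebraMap k[X] (RatFunc k) d ≠ 0 :=
    (map_ne_zero_iff _ (RatFunc.algebraMap_injective k)).2 hd0
  have ha : a = algebraMap _ _ a.num / algebraMap _ _ a.denom := (RatFunc.num_div_denom a).symm
  have hb : b = algebraMap _ _ b.num / algebraMap _ _ b.denom := (RatFunc.num_div_denom b).symm
  have hda : algebraMap k[X] (RatFunc k) a.denom ≠ 0 :=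
    (map_ne_zero_iff _ (RatFunc.algebraMap_injective k)).2 (RatFunc.denom_ne_zero a)
  have hdb : algebraMap k[X] (RatFunc k) b.denom ≠ 0 :=
    (map_ne_zero_iff _ (RatFunc.algebraMap_injective k)).2 (RatFunc.denom_ne_zero b)
  refine ⟨algebraMap _ _ d, a.denom ^ 3 * b.denom ^ 4 * a.num, a.denom ^ 6 * b.denom ^ 5 * b.num,
    hdK, ?_, ?_, ?_⟩
  · conv_rhs => rw [ha]
    rw [hd]
    simp only [map_mul, map_pow]
    field_simp
  · conv_rhs => rw [hb]
    rw [hd]
    simp only [map_mul, map_pow]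
    field_simp
  · rcases hab with h | h
    · left
      have : a.num ≠ 0 := fun h0 => h (RatFunc.num_eq_zero_iff.1 h0)
      exact mul_ne_zero (mul_ne_zero (pow_ne_zero _ (RatFunc.denom_ne_zero a))
        (pow_ne_zero _ (RatFunc.denom_ne_zero b))) this
    · right
      have : b.num ≠ 0 := fun h0 => h (RatFunc.num_eq_zero_iff.1 h0)
      exact mul_ne_zero (mul_ne_zero (pow_ne_zero _ (RatFunc.denom_ne_zero a))
        (pow_ne_zero _ (RatFunc.denom_ne_zero b))) this


/-- **minimal scaling**: `(λ⁴ a, λ⁶ b)` is a minimal pair of polynomials for some `λ ≠ 0`. -/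
theorem s52u_exists_minScale {k : Type*} [Field k] (a b : RatFunc k) (hab : a ≠ 0 ∨ b ≠ 0) :
    ∃ (lam : RatFunc k) (A B : k[X]), lam ≠ 0 ∧ algebraMap k[X] (RatFunc k) A = lam ^ 4 * a ∧
      algebraMap k[X] (RatFunc k) B = lam ^ 6 * b ∧ s52u_IsMin A B := by
  obtain ⟨lam, A₀, B₀, hlam, hA₀, hB₀, hne⟩ := s52u_exists_scale a b hab
  obtain ⟨g, A, B, hg, hA, hB, hmin⟩ := s52u_exists_min A₀ B₀ hne
  have hgK : algebraMap k[X] (RatFunc k) g ≠ 0 :=
    (map_ne_zero_iff _ (RatFunc.algebraMap_injective k)).2 hg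
  refine ⟨lam / algebraMap _ _ g, A, B, div_ne_zero hlam hgK, ?_, ?_, hmin⟩
  · have h1 : algebraMap k[X] (RatFunc k) g ^ 4 * algebraMap k[X] (RatFunc k) A = lam ^ 4 * a := by
      rw [← hA₀, hA, map_mul, map_pow]
    rw [div_pow, div_mul_eq_mul_div, eq_div_iff (pow_ne_zero _ hgK), ← h1]
    ring
  · have h1 : algebraMap k[X] (RatFunc k) g ^ 6 * algebraMap k[X] (RatFunc k) B = lam ^ 6 * b := by
      rw [← hB₀, hB, map_mul, map_pow]
    rw [div_pow, div_mul_eq_mul_div, eq_div_iff (pow_ne_zero _ hgK), ← h1]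
    ring

/-- **the constant twist**: two pairs `(A₀, B₀)`, `(a, b)` of nonzero elements of a field with the
same `j` (`A₀³ b² = B₀² a³`) differ by a quadratic twist: `(t² A₀, t³ B₀) = (a, b)`. -/
theorem s52u_twist_const {k : Type*} [Field k] {A₀ B₀ a b : k} (hA : A₀ ≠ 0) (hB : B₀ ≠ 0)
    (ha : a ≠ 0) (hb : b ≠ 0) (hj : A₀ ^ 3 * b ^ 2 = B₀ ^ 2 * a ^ 3) :
    ∃ t : k, t ≠ 0 ∧ t ^ 2 * A₀ = a ∧ t ^ 3 * B₀ = b := by
  refine ⟨(b / B₀) / (a / A₀), div_ne_zero (div_ne_zero hb hB) (div_ne_zero ha hA), ?_, ?_⟩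
  · field_simp
    linear_combination hj
  · field_simp
    linear_combination hj

end Fermat.Agent.S52
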