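/-
Project S52 (the 3-5 switch), node [UNIV], coprimality (helper17).  Prefix `s52u_`.
MINIMAL + LOCALLY GOOD ⟹ COPRIME.  For `A, B ∈ ℚ[s]` (the coefficients of `y² = x³ + A x + B`):
if the pair is minimal (`s52u_IsMin`: no `π⁴ ∣ A`, `π⁶ ∣ B`) and at every `z ∈ ℚ̄` some scaling by
`(s - z) ^ n` makes the pair integral with a unit entry (`s52u_LocalGood`: the output of [NOS-5] at
the place `s = z` of `ℚ̄(s)`, where `E[5]` is rational), then `IsCoprime A B`; hence
`IsCoprime C4 (C4³ - C6²)` for `(C4, C6) = (-48 A, -864 B)`.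

* `s52u_dvd_of_root`, `s52u_pow_dvd_of_rootMultiplicity` : `(s - z)`-adic versus `π`-adic valuation;
* `s52u_LocalGood`, `s52u_coprime`.
Mathlib + `S52/UNIV/Min`.
-/
import Mathlib
import Fermat.Agent.S52.UNIV.Min
set_option autoImplicit false
namespace Fermat.Agent.S52
open Polynomial

local notation "Qb" => AlgebraicClosure ℚ

/-- an irreducible polynomial with a root `z` divides every polynomial vanishing at `z`. -/
theorem s52u_dvd_of_root {π P : ℚ[X]} (hπ : Irreducible π) {z : Qb}
    (hz : (π.map (algebraMap ℚ Qb)).eval z = 0) (hP : (P.map (algebraMap ℚ Qb)).eval z = 0) :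
    π ∣ P := by
  by_contra hnd
  have hcop : IsCoprime π P := (hπ.coprime_iff_not_dvd).2 hnd
  obtain ⟨u, v, huv⟩ := hcop
  have h1 := congrArg (fun Q : ℚ[X] => (Q.map (algebraMap ℚ Qb)).eval z) huv
  simp only [Polynomial.map_add, Polynomial.map_mul, eval_add, eval_mul, hz, hP, mul_zero,
    add_zero, Polynomial.map_one, eval_one] at h1
  exact zero_ne_one h1

/-- the multiplicity of a root of an irreducible `π` bounds the `π`-adic valuation. -/
theorem s52u_pow_dvd_of_rootMultiplicity {π : ℚ[X]} (hπ : Irreducible π) {z : Qb}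
    (hz : (π.map (algebraMap ℚ Qb)).eval z = 0) :
    ∀ (m : ℕ) (P : ℚ[X]), P ≠ 0 → m ≤ rootMultiplicity z (P.map (algebraMap ℚ Qb)) → π ^ m ∣ P := by
  have hinj : Function.Injective (algebraMap ℚ Qb) := (algebraMap ℚ Qb).injective
  have hπ0 : π.map (algebraMap ℚ Qb) ≠ 0 := (Polynomial.map_ne_zero_iff hinj).2 hπ.ne_zero
  have hπ1 : rootMultiplicity z (π.map (algebraMap ℚ Qb)) = 1 := by
    refine le_antisymm ?_ ?_
    · exact rootMultiplicity_le_one_of_separable (hπ.separable.map) z
    · exact (Polynomial.rootMultiplicity_pos hπ0).2 hz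
  intro m
  induction m with
  | zero => intro P _ _; rw [pow_zero]; exact one_dvd _
  | succ m ih =>
    intro P hP0 hm
    have hP0' : P.map (algebraMap ℚ Qb) ≠ 0 := (Polynomial.map_ne_zero_iff hinj).2 hP0
    have hroot : (P.map (algebraMap ℚ Qb)).eval z = 0 := by
      have : 0 < rootMultiplicity z (P.map (algebraMap ℚ Qb)) := by omega
      exact (Polynomial.rootMultiplicity_pos hP0').1 this
    obtain ⟨P₁, rfl⟩ := s52u_dvd_of_root hπ hz hroot
    have hP₁ : P₁ ≠ 0 := right_ne_zero_of_mul hP0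
    rw [Polynomial.map_mul, rootMultiplicity_mul (by rw [← Polynomial.map_mul]; exact hP0'),
      hπ1] at hm
    have := ih P₁ hP₁ (by omega)
    rw [pow_succ']
    exact mul_dvd_mul_left π this

/-- the local condition at every `z ∈ ℚ̄`: after scaling by some `(s - z) ^ n` the pair is integral
with one unit entry (= good or multiplicative reduction at `s = z`). -/
def s52u_LocalGood (A B : ℚ[X]) : Prop :=
  ∀ z : Qb, ∃ n : ℕ, 4 * n ≤ rootMultiplicity z (A.map (algebraMap ℚ Qb)) ∧
    6 * n ≤ rootMultiplicity z (B.map (algebraMap ℚ Qb)) ∧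
    (rootMultiplicity z (A.map (algebraMap ℚ Qb)) = 4 * n ∨
      rootMultiplicity z (B.map (algebraMap ℚ Qb)) = 6 * n)

/-- **minimal + locally good ⟹ coprime.** -/
theorem s52u_coprime {A B : ℚ[X]} (hA : A ≠ 0) (hB : B ≠ 0) (hmin : s52u_IsMin A B)
    (hloc : s52u_LocalGood A B) : IsCoprime A B := by
  refine isCoprime_of_prime_dvd (fun h => hA h.1) (fun π hπ hπA hπB => ?_)
  have hirr : Irreducible π := hπ.irreducible
  have hdeg : (π.map (algebraMap ℚ Qb)).degree ≠ 0 := by
    rw [Polynomial.degree_map]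
    exact (Polynomial.degree_pos_of_irreducible hirr).ne'
  obtain ⟨z, hz⟩ := IsAlgClosed.exists_root (π.map (algebraMap ℚ Qb)) hdeg
  have hz' : (π.map (algebraMap ℚ Qb)).eval z = 0 := hz
  have hinj : Function.Injective (algebraMap ℚ Qb) := (algebraMap ℚ Qb).injective
  have hA0 : A.map (algebraMap ℚ Qb) ≠ 0 := (Polynomial.map_ne_zero_iff hinj).2 hA
  have hB0 : B.map (algebraMap ℚ Qb) ≠ 0 := (Polynomial.map_ne_zero_iff hinj).2 hB
  -- `z` is a root of `A` and `B`
  have hzA : 0 < rootMultiplicity z (A.map (algebraMap ℚ Qb)) := by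
    rw [Polynomial.rootMultiplicity_pos hA0]
    obtain ⟨A₁, rfl⟩ := hπA
    rw [Polynomial.map_mul, IsRoot.def, eval_mul, hz', zero_mul]
  have hzB : 0 < rootMultiplicity z (B.map (algebraMap ℚ Qb)) := by
    rw [Polynomial.rootMultiplicity_pos hB0]
    obtain ⟨B₁, rfl⟩ := hπB
    rw [Polynomial.map_mul, IsRoot.def, eval_mul, hz', zero_mul]
  obtain ⟨n, h4, h6, hn⟩ := hloc z
  have hn1 : 1 ≤ n := by
    rcases hn with h | h <;> omega
  apply hmin π hirr
  exact ⟨s52u_pow_dvd_of_rootMultiplicity hirr hz' 4 A hA (by omega),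
    s52u_pow_dvd_of_rootMultiplicity hirr hz' 6 B hB (by omega)⟩

end Fermat.Agent.S52
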